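import Fermat.Agent.SimplestCubic.Ring
import Fermat.Agent.IntValued.Galois
import Fermat.Agent.SquarefreeValues.Granville
import Fermat.Agent.Root.SummarySquarefreeValues

/-!
# Squarefree values of `a² + 3 a + 9` with many prime factors

By the Chinese remainder theorem and the density of squarefree values of a quadratic polynomial
there are arbitrarily large `a` with `a² + 3 a + 9` squarefree and divisible by prescribed primes
congruent to `1` modulo `3`.
-/

set_option autoImplicit false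
set_option linter.unusedSectionVars false

noncomputable section

open Polynomial NumberField Filter

namespace FA.SimplestCubic

/-- The primes dividing the discriminant are those dividing `D`. -/
theorem card_primes_discr {a : ℤ} (hsf : Squarefree (disc a)) :
    Nat.card {q : Nat.Primes // ((q : ℕ) : ℤ) ∣ discr (K a)} = (disc a).natAbs.primeFactors.card := by
  have hne : (disc a).natAbs ≠ 0 := Int.natAbs_ne_zero.2 (by have := seven_le_disc a; omega)
  rw [← Nat.card_eq_finsetCard]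
  refine Nat.card_congr
    { toFun := fun q => ⟨q.1.1, ?_⟩
      invFun := fun q => ⟨⟨q.1, (Nat.mem_primeFactors.1 q.2).1⟩, ?_⟩
      left_inv := fun q => rfl
      right_inv := fun q => rfl }
  · refine Nat.mem_primeFactors.2 ⟨q.1.2, Int.natCast_dvd.1 ?_, hne⟩
    have h : _ ∣ discr (K a) := q.2
    exact (Nat.prime_iff_prime_int.1 q.1.2).dvd_of_dvd_pow (h.trans (dvd_of_eq (discr_eq hsf)))
  · refine dvd_trans ?_ (dvd_of_eq (discr_eq hsf).symm)
    exact dvd_pow (Int.natCast_dvd.2 (Nat.mem_primeFactors.1 q.2).2.1) two_ne_zero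

/-- A simple root of `a² + 3 a + 9` modulo a prime `≡ 1 (mod 3)`. -/
theorem exists_simple_root {p : ℕ} (hp : p.Prime) (h : 3 ∣ p - 1) :
    ∃ r : ℕ, (p : ℤ) ∣ disc r ∧ ¬ (p : ℤ) ^ 2 ∣ disc r := by
  have := Fact.mk hp
  have hp3 : 3 < p := by
    have := hp.two_le
    obtain ⟨c, hc⟩ := h
    omega
  obtain ⟨g, hg⟩ := exists_prime_orderOf_dvd_card' 3 (G := (ZMod p)ˣ)
    (by rw [Nat.card_eq_fintype_card, ZMod.card_units]; exact h)
  have hz1 : (g : ZMod p) ≠ 1 := fun e => by
    rw [Units.val_eq_one] at e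
    rw [e, orderOf_one] at hg
    omega
  have hz3 : (g : ZMod p) ^ 3 = 1 := by
    rw [← Units.val_pow_eq_pow_val, ← hg, pow_orderOf_eq_one, Units.val_one]
  have hq : (g : ZMod p) ^ 2 + g + 1 = 0 := (mul_eq_zero.1
    (show ((g : ZMod p) - 1) * ((g : ZMod p) ^ 2 + g + 1) = 0 by linear_combination hz3)).resolve_left
    (sub_ne_zero.2 hz1)
  set r := (3 * (g : ZMod p)).val
  have hr : (p : ℤ) ∣ disc r := by
    rw [← ZMod.intCast_zmod_eq_zero_iff_dvd]
    simp only [disc, Int.cast_add, Int.cast_pow, Int.cast_mul, Int.cast_ofNat, Int.cast_natCast, r,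
      ZMod.natCast_zmod_val]
    linear_combination 9 * hq
  by_cases h2 : (p : ℤ) ^ 2 ∣ disc r
  · refine ⟨r + p, ?_, fun h3 => ?_⟩
    · have e : disc ((r + p : ℕ) : ℤ) = disc r + (p : ℤ) * (2 * (r : ℤ) + p + 3) := by
        simp only [disc]; push_cast; ring
      rw [e]; exact dvd_add hr (dvd_mul_right _ _)
    · have e : disc ((r + p : ℕ) : ℤ) = disc r + (p : ℤ) * (2 * (r : ℤ) + 3) + (p : ℤ) ^ 2 := by
        simp only [disc]; push_cast; ring
      rw [e, dvd_add_self_right, dvd_add_right h2, pow_two,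
        mul_dvd_mul_iff_left (Nat.cast_ne_zero.2 hp.ne_zero)] at h3
      have h27 : (p : ℤ) ∣ 27 := by
        have e2 : (27 : ℤ) = 4 * disc r - (2 * (r : ℤ) + 3) * (2 * (r : ℤ) + 3) := by
          simp only [disc]; ring
        rw [e2]
        exact dvd_sub (hr.mul_left 4) (dvd_mul_of_dvd_left h3 _)
      have h28 : p ∣ 3 ^ 3 := by exact_mod_cast h27
      have := (Nat.prime_dvd_prime_iff_eq hp Nat.prime_three).1 (hp.dvd_of_dvd_pow h28)
      omega
  · exact ⟨r, hr, h2⟩

/-- **Squarefree values divisible by given primes**, beyond any bound. -/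
theorem exists_squarefree_value (S : Finset ℕ) (hS : ∀ p ∈ S, p.Prime ∧ 3 ∣ p - 1) (B : ℕ) :
    ∃ a : ℕ, B ≤ a ∧ Squarefree (disc a) ∧ ∀ p ∈ S, (p : ℤ) ∣ disc a := by
  classical
  choose r hr1 hr2 using fun p : S => exists_simple_root (hS p.1 p.2).1 (hS p.1 p.2).2
  obtain ⟨a₀, ha₀⟩ := Nat.chineseRemainderOfFinset (fun p : S => r p) (fun p => p.1 ^ 2)
    (Finset.univ : Finset S) (fun p _ => pow_ne_zero _ (hS p.1 p.2).1.ne_zero)
    (fun p _ q _ hpq => Nat.Coprime.pow _ _ ((Nat.coprime_primes (hS p.1 p.2).1 (hS q.1 q.2).1).2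
      fun h => hpq (Subtype.ext h)))
  set M := ∏ p ∈ S, p ^ 2 with hM
  have hM0 : M ≠ 0 := Finset.prod_ne_zero_iff.2 fun p hp => pow_ne_zero _ (hS p hp).1.ne_zero
  have hmod : ∀ (p : S) (n : ℕ), (p.1 : ℤ) ^ 2 ∣ disc ((a₀ : ℤ) + M * n) - disc (r p) := fun p n => by
    have h1 : ((p.1 ^ 2 : ℕ) : ℤ) ∣ (a₀ : ℤ) - r p :=
      Nat.modEq_iff_dvd.1 (ha₀ p (Finset.mem_univ _)).symm
    have h2 : ((p.1 ^ 2 : ℕ) : ℤ) ∣ (a₀ : ℤ) + M * n - r p := by
      rw [add_sub_right_comm]
      exact dvd_add h1 (dvd_mul_of_dvd_left (Int.natCast_dvd_natCast.2 (Finset.dvd_prod_of_mem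
        (fun p => p ^ 2) p.2)) _)
    rw [Nat.cast_pow] at h2
    have e : disc ((a₀ : ℤ) + M * n) - disc (r p) =
        ((a₀ : ℤ) + M * n - r p) * ((a₀ : ℤ) + M * n + r p + 3) := by simp only [disc]; ring
    rw [e]
    exact h2.mul_right _
  set f : ℤ[X] := C ((M : ℤ) ^ 2) * X ^ 2 + C ((M : ℤ) * (2 * a₀ + 3)) * X + C (disc a₀) with hf
  have hev : ∀ n : ℕ, f.eval (n : ℤ) = disc ((a₀ : ℤ) + M * n) := fun n => by
    simp only [hf, eval_add, eval_mul, eval_C, eval_pow, eval_X, disc]; ring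
  have hMQ : (M : ℚ) ≠ 0 := Nat.cast_ne_zero.2 hM0
  have hsep : (f.map (Int.castRingHom ℚ)).Separable := by
    have hmap : f.map (Int.castRingHom ℚ) = C ((M : ℚ) ^ 2) * X ^ 2 +
        C ((M : ℚ) * (2 * a₀ + 3)) * X + C ((disc a₀ : ℤ) : ℚ) := by
      simp only [hf, Polynomial.map_add, Polynomial.map_mul, Polynomial.map_pow, map_C, map_X]
      simp
    rw [hmap, separable_def']
    refine ⟨C (4 / 27), C (-2 / 27) * X + C (-(2 * (a₀ : ℚ) + 3) / (27 * M)), ?_⟩
    simp only [derivative_add, derivative_mul, derivative_C, derivative_X_sq, derivative_X,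
      zero_mul, zero_add, mul_one, add_zero]
    refine Polynomial.funext fun x => ?_
    simp only [eval_add, eval_mul, eval_C, eval_pow, eval_X, eval_one, disc]
    push_cast
    field_simp
    ring
  have hpos : 0 < FA.SquarefreeValues.sfDensity f :=
    (FA.SquarefreeValues.sfDensity_pos_iff hsep).2 fun p hp => by
      by_cases hpS : p ∈ S
      · refine ⟨0, fun h => hr2 ⟨p, hpS⟩ ?_⟩
        rw [hev] at h
        have h' := dvd_sub h (hmod ⟨p, hpS⟩ 0)
        rwa [sub_sub_cancel] at h'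
      · obtain ⟨c, hc⟩ : ∃ c : ℤ, ¬ (p : ℤ) ^ 2 ∣ disc c := by
          rcases eq_or_ne p 3 with rfl | h3
          · exact ⟨1, by norm_num [disc]⟩
          · refine ⟨0, fun h => h3 ?_⟩
            have h9 : p ∣ 3 ^ 2 := by
              have : (p : ℤ) ∣ 9 := (dvd_pow_self _ two_ne_zero).trans (by simpa [disc] using h)
              exact_mod_cast this
            exact (Nat.prime_dvd_prime_iff_eq hp Nat.prime_three).1 (hp.dvd_of_dvd_pow h9)
        have : NeZero (p ^ 2) := ⟨pow_ne_zero _ hp.ne_zero⟩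
        have hco : M.Coprime (p ^ 2) := Nat.Coprime.prod_left fun q hq =>
          Nat.Coprime.pow _ _ ((Nat.coprime_primes (hS q hq).1 hp).2 fun e => hpS (e ▸ hq))
        set n := (((c - a₀ : ℤ) : ZMod (p ^ 2)) * ((ZMod.unitOfCoprime M hco)⁻¹ : (ZMod (p ^ 2))ˣ)).val
        refine ⟨n, fun h => hc ?_⟩
        rw [hev] at h
        have e : (((a₀ : ℤ) + M * n : ℤ) : ZMod (p ^ 2)) = (c : ZMod (p ^ 2)) := by
          push_cast
          rw [show (n : ZMod (p ^ 2)) = _ from ZMod.natCast_zmod_val _, mul_left_comm,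
            ← ZMod.coe_unitOfCoprime M hco, Units.mul_inv, mul_one]
          push_cast; ring
        have h1 : ((disc ((a₀ : ℤ) + M * n) : ℤ) : ZMod (p ^ 2)) = (disc c : ℤ) := by
          simp only [disc, Int.cast_add, Int.cast_pow, Int.cast_mul, Int.cast_ofNat] at e ⊢
          rw [e]
        have h0 : ((disc ((a₀ : ℤ) + M * n) : ℤ) : ZMod (p ^ 2)) = 0 :=
          (ZMod.intCast_zmod_eq_zero_iff_dvd _ _).2 (by exact_mod_cast h)
        have h2 := (ZMod.intCast_zmod_eq_zero_iff_dvd _ _).1 (h1.symm.trans h0)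
        exact_mod_cast h2
  have hd : f.natDegree ≤ 2 := by rw [hf]; compute_degree
  -- infinitely many squarefree values
  obtain ⟨n, hn, hnsf⟩ : ∃ n : ℕ, B ≤ n ∧ Squarefree (f.eval (n : ℤ)) := by
    by_contra hcon
    push Not at hcon
    obtain ⟨C₀, hC⟩ := exists_nat_gt ((B : ℝ) / (FA.SquarefreeValues.sfDensity f / 2))
    obtain ⟨N, hN1, hN2⟩ := (((FA.Summary.squarefree_values_quadratic hsep hd).eventually
      (lt_mem_nhds (show FA.SquarefreeValues.sfDensity f / 2 < FA.SquarefreeValues.sfDensity f by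
        linarith))).and (eventually_ge_atTop (C₀ + 1))).exists
    have hsub : (((Finset.range N).filter fun n : ℕ => Squarefree (f.eval (n : ℤ))).card : ℝ) ≤
        (B : ℝ) := by
      refine Nat.cast_le.2 ((Finset.card_le_card fun n hn => ?_).trans (Finset.card_range B).le)
      obtain ⟨-, h2⟩ := Finset.mem_filter.1 hn
      exact Finset.mem_range.2 (not_le.1 fun h => hcon n h h2)
    have hNpos : (0 : ℝ) < N := by exact_mod_cast (by omega : 0 < N)
    rw [lt_div_iff₀ hNpos] at hN1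
    rw [div_lt_iff₀ (by linarith)] at hC
    have : (C₀ : ℝ) ≤ N := by exact_mod_cast (by omega : C₀ ≤ N)
    nlinarith
  rw [hev] at hnsf
  refine ⟨a₀ + M * n, ?_, by exact_mod_cast hnsf, fun p hp => ?_⟩
  · have : n ≤ M * n := Nat.le_mul_of_pos_left _ (Nat.pos_of_ne_zero hM0)
    omega
  · have h1 := hmod ⟨p, hp⟩ n
    have h2 := hr1 ⟨p, hp⟩
    have h3 := dvd_add ((dvd_pow_self (p : ℤ) two_ne_zero).trans h1) h2
    rw [sub_add_cancel] at h3
    exact_mod_cast h3

end FA.SimplestCubic
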