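import Mathlib

/-!
# Shanks's simplest cubic fields

`K a = ℚ(ρ)` with `ρ³ = a ρ² + (a + 3) ρ + 1`: a cyclic totally real cubic field, `ρ ↦ -1/(1 + ρ)`,
in which `ρ` and `1 + ρ` are independent units.
-/

set_option autoImplicit false
set_option linter.unusedSectionVars false
set_option linter.style.haveILetI false

noncomputable section

open Polynomial NumberField Module

namespace FA.SimplestCubic

/-- The polynomial over the integers. -/
def fZ (a : ℤ) : ℤ[X] := X ^ 3 - C a * X ^ 2 - C (a + 3) * X - 1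

/-- The polynomial. -/
def fQ (a : ℤ) : ℚ[X] := X ^ 3 - C (a : ℚ) * X ^ 2 - C ((a : ℚ) + 3) * X - 1

variable (a : ℤ)

theorem fZ_monic : (fZ a).Monic := by unfold fZ; monicity!

theorem fQ_monic : (fQ a).Monic := by unfold fQ; monicity!

theorem natDegree_fQ : (fQ a).natDegree = 3 := by unfold fQ; compute_degree!

theorem map_fZ : (fZ a).map (Int.castRingHom ℚ) = fQ a := by simp [fZ, fQ, map_ofNat]

theorem no_int_root (y : ℤ) : y ^ 3 - a * y ^ 2 - (a + 3) * y - 1 ≠ 0 := fun h => by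
  have hd : y ∣ 1 := ⟨y ^ 2 - a * y - (a + 3), by linear_combination -h⟩
  rcases Int.isUnit_iff.1 (isUnit_of_dvd_one hd) with rfl | rfl <;> omega

theorem fQ_irreducible : Irreducible (fQ a) := by
  rw [(fQ_monic a).irreducible_iff_roots_eq_zero_of_degree_le_three (by rw [natDegree_fQ]; omega)
    (by rw [natDegree_fQ])]
  refine Multiset.eq_zero_of_forall_notMem fun x hx => ?_
  have h := (mem_roots'.mp hx).2
  have hx0 : x ^ 3 - (a : ℚ) * x ^ 2 - ((a : ℚ) + 3) * x - 1 = 0 := by simpa [fQ] using h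
  have hint : IsIntegral ℤ x := ⟨fZ a, fZ_monic a, by
    rw [← aeval_def]; simpa [fZ, map_ofNat] using hx0⟩
  obtain ⟨y, rfl⟩ := IsIntegrallyClosed.isIntegral_iff.1 hint
  simp only [eq_intCast] at hx0
  exact no_int_root a y (by exact_mod_cast hx0)

instance fact_fQ : Fact (Irreducible (fQ a)) := ⟨fQ_irreducible a⟩

/-- The field. -/
abbrev K : Type := AdjoinRoot (fQ a)

/-- The root. -/
abbrev rho : K a := AdjoinRoot.root (fQ a)

instance charZero_K : CharZero (K a) :=
  charZero_of_injective_algebraMap (algebraMap ℚ (K a)).injective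

instance finiteDimensional_K : FiniteDimensional ℚ (K a) :=
  (AdjoinRoot.powerBasis (fQ_monic a).ne_zero).finite

instance numberField_K : NumberField (K a) := {}

theorem rho_eq : rho a ^ 3 - (a : K a) * rho a ^ 2 - ((a : K a) + 3) * rho a - 1 = 0 := by
  have h : aeval (rho a) (fQ a) = 0 := (AdjoinRoot.aeval_eq (fQ a)).trans AdjoinRoot.mk_self
  simpa [fQ, map_ofNat] using h

theorem finrank_K : finrank ℚ (K a) = 3 := by
  rw [(AdjoinRoot.powerBasis (fQ_monic a).ne_zero).finrank, AdjoinRoot.powerBasis_dim, natDegree_fQ]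

/-- The basis `1, ρ, ρ²`. -/
def basisK : Basis (Fin 3) ℚ (K a) :=
  (AdjoinRoot.powerBasis (fQ_monic a).ne_zero).basis.reindex
    (finCongr (by rw [AdjoinRoot.powerBasis_dim, natDegree_fQ]))

theorem basisK_apply (j : Fin 3) : basisK a j = rho a ^ (j : ℕ) := by simp [basisK, rho]

/-- The element `x + y ρ + z ρ²`. -/
def el (x y z : ℚ) : K a := (x : K a) + (y : K a) * rho a + (z : K a) * rho a ^ 2

theorem el_eq_sum (x y z : ℚ) : el a x y z = ∑ i, ![x, y, z] i • basisK a i := by
  simp [el, Fin.sum_univ_three, basisK_apply, Algebra.smul_def]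

theorem repr_el (x y z : ℚ) : ⇑((basisK a).repr (el a x y z)) = ![x, y, z] := by
  rw [el_eq_sum]
  exact funext fun i => by rw [Basis.repr_sum_self]

theorem el_add (x y z x' y' z' : ℚ) :
    el a x y z + el a x' y' z' = el a (x + x') (y + y') (z + z') := by
  simp only [el]; push_cast; ring

theorem el_mul_rho (x y z : ℚ) :
    el a x y z * rho a = el a z (x + ((a : ℚ) + 3) * z) (y + (a : ℚ) * z) := by
  simp only [el]
  push_cast
  linear_combination (z : K a) * rho_eq a

theorem el_mul (x y z x' y' z' : ℚ) :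
    el a x y z * el a x' y' z' = (x' : K a) * el a x y z + (y' : K a) * (el a x y z * rho a) +
      (z' : K a) * (el a x y z * rho a * rho a) := by
  simp only [el]; ring

theorem leftMul_el (x y z : ℚ) : Algebra.leftMulMatrix (basisK a) (el a x y z) =
    !![x, z, y + (a : ℚ) * z;
       y, x + ((a : ℚ) + 3) * z, z + ((a : ℚ) + 3) * (y + (a : ℚ) * z);
       z, y + (a : ℚ) * z, x + ((a : ℚ) + 3) * z + (a : ℚ) * (y + (a : ℚ) * z)] := by
  ext i j
  rw [Algebra.leftMulMatrix_eq_repr_mul, basisK_apply]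
  fin_cases j
  · simp only [Fin.zero_eta, pow_zero, mul_one, repr_el]
    fin_cases i <;> simp
  · simp only [Fin.mk_one, pow_one, el_mul_rho, repr_el]
    fin_cases i <;> simp
  · simp only [Fin.reduceFinMk, pow_two, ← mul_assoc, el_mul_rho, repr_el]
    fin_cases i <;> simp

theorem trace_el (x y z : ℚ) : Algebra.trace ℚ (K a) (el a x y z) =
    3 * x + (a : ℚ) * y + ((a : ℚ) ^ 2 + 2 * a + 6) * z := by
  rw [Algebra.trace_eq_matrix_trace (basisK a), leftMul_el, Matrix.trace_fin_three]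
  simp
  ring

/-- The number `a² + 3a + 9`. -/
def disc : ℤ := a ^ 2 + 3 * a + 9

theorem seven_le_disc : 7 ≤ disc a := by
  rcases le_or_gt a (-2) with h | h
  · unfold disc; nlinarith
  · rcases (show a = -1 ∨ 0 ≤ a by omega) with rfl | h'
    · norm_num [disc]
    · unfold disc; nlinarith

theorem discr_powers :
    Algebra.discr ℚ (fun j : Fin 3 => rho a ^ (j : ℕ)) = ((disc a ^ 2 : ℤ) : ℚ) := by
  set A : ℚ := (a : ℚ) with hA
  have h0 : rho a ^ 0 = el a 1 0 0 := by simp [el]
  have h1 : rho a ^ 1 = el a 0 1 0 := by simp [el]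
  have h2 : rho a ^ 2 = el a 0 0 1 := by simp [el]
  have h3 : rho a ^ 3 = el a 1 (A + 3) A := by
    rw [pow_succ, h2, el_mul_rho]; congr 1 <;> simp [hA]
  have h4 : rho a ^ 4 = el a A (1 + (A + 3) * A) (A + 3 + A * A) := by
    rw [pow_succ, h3, el_mul_rho]
  have hM : Algebra.traceMatrix ℚ (fun j : Fin 3 => rho a ^ (j : ℕ)) =
      !![3, A, A ^ 2 + 2 * A + 6;
         A, A ^ 2 + 2 * A + 6, A ^ 3 + 3 * A ^ 2 + 9 * A + 3;
         A ^ 2 + 2 * A + 6, A ^ 3 + 3 * A ^ 2 + 9 * A + 3,
           3 * A + A * (1 + (A + 3) * A) + (A ^ 2 + 2 * A + 6) * (A + 3 + A * A)] := by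
    ext i j
    rw [Algebra.traceMatrix_apply, Algebra.traceForm_apply, ← pow_add]
    fin_cases i <;> fin_cases j <;> norm_num only [h0, h1, h2, h3, h4, trace_el] <;>
      simp [-pow_one, -pow_zero] <;> ring
  rw [Algebra.discr_def, hM, Matrix.det_fin_three]
  simp [disc, hA]
  ring

/-! ### The Galois group -/

theorem rho_ne_zero : rho a ≠ 0 := fun h => by simpa [h] using rho_eq a

theorem one_add_rho_ne_zero : 1 + rho a ≠ 0 := fun h => by
  have h1 := rho_eq a
  rw [show rho a = -1 by linear_combination h] at h1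
  ring_nf at h1
  exact one_ne_zero h1

theorem aeval_conj : aeval (-(1 + rho a)⁻¹) (fQ a) = 0 := by
  have h := one_add_rho_ne_zero a
  simp only [fQ, map_sub, map_mul, map_pow, aeval_X, map_one, map_intCast, map_add,
    map_ofNat]
  field_simp
  linear_combination -rho_eq a

/-- The automorphism `ρ ↦ -1/(1 + ρ)`. -/
def conjHom : K a →ₐ[ℚ] K a :=
  AdjoinRoot.liftAlgHom (fQ a) (Algebra.ofId ℚ (K a)) (-(1 + rho a)⁻¹) (aeval_conj a)

theorem conjHom_rho : conjHom a (rho a) = -(1 + rho a)⁻¹ := AdjoinRoot.liftAlgHom_root ..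

theorem splits : ((fQ a).map (algebraMap ℚ (K a))).Splits := by
  have h0 := rho_ne_zero a
  have h := one_add_rho_ne_zero a
  have hsum : rho a + -(1 + rho a)⁻¹ + -(1 + rho a) / rho a = (a : K a) := by
    field_simp
    linear_combination rho_eq a
  have hpair : rho a * -(1 + rho a)⁻¹ + rho a * (-(1 + rho a) / rho a) +
      -(1 + rho a)⁻¹ * (-(1 + rho a) / rho a) = -((a : K a) + 3) := by
    field_simp
    linear_combination -rho_eq a
  have hprod : rho a * -(1 + rho a)⁻¹ * (-(1 + rho a) / rho a) = 1 := by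
    field_simp
  have he : (fQ a).map (algebraMap ℚ (K a)) =
      (X - C (rho a)) * (X - C (-(1 + rho a)⁻¹)) * (X - C (-(1 + rho a) / rho a)) := by
    have e : ∀ r s t : K a, (X - C r) * (X - C s) * (X - C t) =
        X ^ 3 - C (r + s + t) * X ^ 2 + C (r * s + r * t + s * t) * X - C (r * s * t) :=
      fun r s t => by simp only [map_add, map_mul]; ring
    rw [e, hsum, hpair, hprod]
    simp [fQ]
    ring
  rw [he]
  exact ((Polynomial.Splits.X_sub_C _).mul (Polynomial.Splits.X_sub_C _)).mul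
    (Polynomial.Splits.X_sub_C _)

instance isGalois_K : IsGalois ℚ (K a) := by
  haveI : IsSplittingField ℚ (K a) (fQ a) :=
    ⟨splits a, top_le_iff.1 ((AdjoinRoot.adjoinRoot_eq_top (f := fQ a)).symm.le.trans
      (Algebra.adjoin_mono (Set.singleton_subset_iff.2 ((mem_rootSet_of_ne (fQ_monic a).ne_zero).2
        ((AdjoinRoot.aeval_eq (fQ a)).trans AdjoinRoot.mk_self)))))⟩
  haveI : Normal ℚ (K a) := Normal.of_isSplittingField (fQ a)
  exact ⟨⟩

instance isCyclic_K : IsCyclic (K a ≃ₐ[ℚ] K a) :=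
  haveI : Fact (Nat.Prime 3) := ⟨Nat.prime_three⟩
  isCyclic_of_prime_card (p := 3) (by rw [IsGalois.card_aut_eq_finrank, finrank_K])

instance isTotallyReal_K : IsTotallyReal (K a) := ⟨fun w => by
  have := IsUnramifiedAtInfinitePlaces_of_odd_finrank (k := ℚ) (K := K a)
    (by rw [finrank_K]; decide)
  rcases InfinitePlace.isUnramified_iff.1 (w.isUnramified ℚ) with h | h
  · exact h
  · exact absurd (IsTotallyReal.isReal (K := ℚ) _) (InfinitePlace.not_isReal_iff_isComplex.2 h)⟩

/-! ### The units -/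

theorem unitRank_eq_two : Units.rank (K a) = 2 := by
  have h := IsTotallyReal.finrank (K := K a)
  rw [finrank_K] at h
  rw [Units.rank, InfinitePlace.card_eq_nrRealPlaces_add_nrComplexPlaces,
    IsTotallyReal.nrComplexPlaces_eq_zero, add_zero, ← h]

theorem pow_eq_one_rho {n : ℕ} (hn : rho a ^ n = 1) : n = 0 := by
  by_contra h0
  obtain ⟨w⟩ : Nonempty (InfinitePlace (K a)) := inferInstance
  set φ := InfinitePlace.embedding_of_isReal (IsTotallyReal.isReal w)
  have h1 : φ (rho a) ^ n = 1 := by rw [← map_pow, hn, map_one]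
  have h2 := congrArg abs h1
  rw [abs_pow, abs_one, pow_eq_one_iff_of_nonneg (abs_nonneg _) h0] at h2
  have h3 := congrArg φ (rho_eq a)
  simp only [map_sub, map_mul, map_pow, map_intCast, map_add, map_ofNat, map_one, map_zero] at h3
  rcases eq_or_eq_neg_of_abs_eq h2 with h | h <;> rw [h] at h3 <;> ring_nf at h3
  · have : (2 * a + 3 : ℤ) = 0 := by exact_mod_cast (show (2 * (a : ℝ) + 3) = 0 by linarith)
    omega
  · exact absurd h3 (by norm_num)

/-- **Independence** of `ρ` and `1 + ρ`. -/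
theorem independent {i j : ℤ}
    (h : rho a ^ i * (1 + rho a) ^ j = 1 ∨ rho a ^ i * (1 + rho a) ^ j = -1) : i = 0 ∧ j = 0 := by
  have h0 := rho_ne_zero a
  have hu := one_add_rho_ne_zero a
  set u := 1 + rho a with hudef
  have hI : rho a ^ (2 * i) * u ^ (2 * j) = 1 := by
    rw [mul_comm 2 i, mul_comm 2 j, zpow_mul, zpow_mul, ← mul_zpow]
    rcases h with h | h <;> rw [h] <;> norm_num
  have hu' : conjHom a u = rho a * u⁻¹ := by
    rw [hudef, map_add, map_one, conjHom_rho, ← hudef,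
      show rho a = u - 1 by rw [hudef]; ring, sub_mul, mul_inv_cancel₀ hu, one_mul, ← sub_eq_add_neg]
  have hII : rho a ^ (2 * j) * u ^ (-(2 * i + 2 * j)) = 1 := by
    have h1 := congrArg (conjHom a) hI
    rw [map_mul, map_zpow₀, map_zpow₀, conjHom_rho, hu', map_one, ← hudef,
      (show Even (2 * i) from ⟨i, by ring⟩).neg_zpow u⁻¹, inv_zpow', mul_zpow, inv_zpow'] at h1
    rw [neg_add, zpow_add₀ hu]
    rw [← h1]; ring
  have key : rho a ^ (2 * i * (2 * i + 2 * j) + 2 * j * (2 * j)) = 1 := by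
    have h1 : (rho a ^ (2 * i) * u ^ (2 * j)) ^ (2 * i + 2 * j) *
        (rho a ^ (2 * j) * u ^ (-(2 * i + 2 * j))) ^ (2 * j) = 1 := by
      rw [hI, hII, one_zpow, one_zpow, one_mul]
    rw [mul_zpow, mul_zpow, ← zpow_mul, ← zpow_mul, ← zpow_mul, ← zpow_mul, mul_mul_mul_comm,
      ← zpow_add₀ h0, ← zpow_add₀ hu] at h1
    rw [show 2 * j * (2 * i + 2 * j) + -(2 * i + 2 * j) * (2 * j) = 0 by ring, zpow_zero,
      mul_one] at h1
    exact h1
  have hnn : 0 ≤ 2 * i * (2 * i + 2 * j) + 2 * j * (2 * j) := by nlinarith [sq_nonneg (i + j)]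
  obtain ⟨n, hn⟩ := Int.eq_ofNat_of_zero_le hnn
  rw [hn, zpow_natCast] at key
  rw [pow_eq_one_rho a key, Nat.cast_zero] at hn
  constructor <;> nlinarith [sq_nonneg (i + j), sq_nonneg i, sq_nonneg j]

theorem isIntegral_rho : IsIntegral ℤ (rho a) :=
  ⟨fZ a, fZ_monic a, by rw [← aeval_def]; simpa [fZ, map_ofNat] using rho_eq a⟩

/-- The root as an algebraic integer. -/
def rhoO : 𝓞 (K a) := ⟨rho a, isIntegral_rho a⟩

@[simp] theorem coe_rhoO : (rhoO a : K a) = rho a := rfl

theorem isUnit_rhoO : IsUnit (rhoO a) ∧ IsUnit (1 + rhoO a) := by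
  constructor
  · refine isUnit_of_dvd_one ⟨rhoO a ^ 2 - (a : 𝓞 (K a)) * rhoO a - ((a : 𝓞 (K a)) + 3), ?_⟩
    refine RingOfIntegers.ext ?_
    simp only [map_mul, map_sub, map_pow, map_add, map_intCast, map_ofNat, map_one, coe_rhoO]
    linear_combination -rho_eq a
  · refine isUnit_of_dvd_one ⟨-(1 + rhoO a) ^ 2 + ((a : 𝓞 (K a)) + 3) * (1 + rhoO a) - (a : 𝓞 (K a)), ?_⟩
    refine RingOfIntegers.ext ?_
    simp only [map_mul, map_sub, map_pow, map_neg, map_add, map_intCast, map_ofNat, map_one, coe_rhoO]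
    linear_combination rho_eq a

end FA.SimplestCubic
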