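import Fermat.Agent.SimplestCubic.Field

/-!
# The ring of integers of a simplest cubic field

If `D = a² + 3a + 9` is squarefree the polynomial shifted by `a / 3` is Eisenstein at every prime
dividing `D`; so the integers are `ℤ[ρ]` and the discriminant is `D²`.
-/

set_option autoImplicit false
set_option linter.unusedSectionVars false

noncomputable section

open Polynomial NumberField Module

namespace FA.SimplestCubic

variable {a : ℤ}

/-- The shifted polynomial. -/
def shifted (a r : ℤ) : ℤ[X] :=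
  X ^ 3 + C (3 * r - a) * X ^ 2 + C (3 * r ^ 2 - 2 * a * r - (a + 3)) * X +
    C (r ^ 3 - a * r ^ 2 - (a + 3) * r - 1)

theorem shifted_monic (a r : ℤ) : (shifted a r).Monic := by unfold shifted; monicity!

theorem natDegree_shifted (a r : ℤ) : (shifted a r).natDegree = 3 := by
  unfold shifted; compute_degree!

theorem aeval_shifted (r : ℤ) :
    aeval (rho a - (r : K a)) (shifted a r) = 0 := by
  simp only [shifted, map_add, map_mul, map_pow, aeval_X, map_sub, map_one, map_ofNat,
    eq_intCast, map_intCast]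
  linear_combination rho_eq a

theorem not_dvd_three (hsf : Squarefree (disc a)) : ¬ (3 : ℤ) ∣ disc a := fun h => by
  have ha : (3 : ℤ) ∣ a := by
    have h1 : (3 : ℤ) ∣ a * a := ⟨(disc a) / 3 - a - 3, by
      have := Int.mul_ediv_cancel' h
      simp only [disc] at this ⊢
      linear_combination -this⟩
    exact (Int.prime_three.dvd_mul.1 h1).elim id id
  obtain ⟨b, rfl⟩ := ha
  exact Int.prime_three.not_isUnit (hsf 3 ⟨b ^ 2 + b + 1, by simp only [disc]; ring⟩)

theorem not_dvd_two_mul (hsf : Squarefree (disc a)) {p : ℤ} (hp : Prime p) (hpD : p ∣ disc a) :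
    ¬ p ∣ 2 * a + 3 := fun h => by
  have h27 : p ∣ (3 : ℤ) ^ 3 := by
    have h1 : p ∣ 4 * disc a - (2 * a + 3) ^ 2 := dvd_sub (hpD.mul_left 4) (dvd_pow h two_ne_zero)
    rwa [show 4 * disc a - (2 * a + 3) ^ 2 = (3 : ℤ) ^ 3 by simp [disc]; ring] at h1
  exact not_dvd_three hsf
    (((hp.associated_of_dvd Int.prime_three (hp.dvd_of_dvd_pow h27)).symm.dvd).trans hpD)

theorem three_not_dvd_of (hsf : Squarefree (disc a)) {p : ℤ} (hp : Prime p) (hpD : p ∣ disc a) :
    ¬ p ∣ 3 := fun h =>
  not_dvd_three hsf (((hp.associated_of_dvd Int.prime_three h).symm.dvd).trans hpD)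

/-- **Eisenstein at every prime of `D`.** -/
theorem exists_eisenstein (hsf : Squarefree (disc a)) {p : ℤ} (hp : Prime p) (hpD : p ∣ disc a) :
    ∃ r : ℤ, (shifted a r).IsEisensteinAt (Submodule.span ℤ {p}) := by
  have h3 := three_not_dvd_of hsf hp hpD
  obtain ⟨u, v, huv⟩ : IsCoprime (3 : ℤ) p := (hp.coprime_iff_not_dvd.2 h3).symm
  set r := u * a with hr
  set k := -v * a with hk
  have hrk : 3 * r = a + p * k := by rw [hr, hk]; linear_combination a * huv
  have h27 : (27 : ℤ) * (r ^ 3 - a * r ^ 2 - (a + 3) * r - 1) =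
      -(2 * a + 3) * disc a - 3 * (p * k) * disc a + (p * k) ^ 3 := by
    simp only [disc]
    linear_combination ((3 * r) ^ 2 + (3 * r) * (a + p * k) + (a + p * k) ^ 2 -
      3 * a * (3 * r + (a + p * k)) - 9 * (a + 3)) * hrk
  have h9 : (3 : ℤ) * (3 * r ^ 2 - 2 * a * r - (a + 3)) = -disc a + (p * k) ^ 2 := by
    simp only [disc]
    linear_combination (3 * r + a + p * k - 2 * a) * hrk
  refine ⟨r, ⟨?_, fun {n} hn => ?_, ?_⟩⟩
  · rw [(shifted_monic a r).leadingCoeff, Ideal.mem_span_singleton]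
    exact fun h => hp.not_isUnit (isUnit_of_dvd_one h)
  · rw [natDegree_shifted] at hn
    rw [Ideal.mem_span_singleton]
    interval_cases n <;> simp only [shifted, coeff_add, coeff_X_pow, coeff_C_mul, coeff_X,
      coeff_C] <;> norm_num
    · refine (hp.dvd_or_dvd (a := 27) ?_).resolve_left fun h => ?_
      · rw [h27]
        exact dvd_add (dvd_sub (hpD.mul_left _) (hpD.mul_left _)) (dvd_pow (dvd_mul_right p k) three_ne_zero)
      · exact h3 (hp.dvd_of_dvd_pow (n := 3) (by norm_num; exact h))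
    · refine (hp.dvd_or_dvd (a := 3) ?_).resolve_left h3
      rw [h9]
      exact dvd_add (dvd_neg.2 hpD) (dvd_pow (dvd_mul_right p k) two_ne_zero)
    · exact ⟨k, by linear_combination hrk⟩
  · rw [Ideal.span_singleton_pow, Ideal.mem_span_singleton]
    simp only [shifted, coeff_add, coeff_X_pow, coeff_C_mul, coeff_X, coeff_C]
    norm_num
    intro h
    have h1 : p ^ 2 ∣ (2 * a + 3) * disc a := by
      have h2 : p ^ 2 ∣ -(2 * a + 3) * disc a - 3 * (p * k) * disc a + (p * k) ^ 3 :=
        h27 ▸ h.mul_left 27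
      obtain ⟨d, hd⟩ := hpD
      have h4 : p ^ 2 ∣ 3 * (p * k) * disc a - (p * k) ^ 3 :=
        ⟨3 * k * d - p * k ^ 3, by rw [hd]; ring⟩
      have h5 := dvd_add h2 h4
      rw [← dvd_neg]
      exact (show -(2 * a + 3) * disc a - 3 * (p * k) * disc a + (p * k) ^ 3 +
        (3 * (p * k) * disc a - (p * k) ^ 3) = -((2 * a + 3) * disc a) by ring) ▸ h5
    obtain ⟨d, hd⟩ := hpD
    rw [hd, pow_two, mul_left_comm, mul_dvd_mul_iff_left hp.ne_zero] at h1
    refine (hp.dvd_or_dvd h1).elim (not_dvd_two_mul hsf hp ⟨d, hd⟩) fun hpd => ?_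
    exact hp.not_isUnit (hsf p (hd ▸ mul_dvd_mul_left p hpd))

theorem minpoly_sub (r : ℤ) {p : ℤ} (hp : Prime p)
    (he : (shifted a r).IsEisensteinAt (Submodule.span ℤ {p})) :
    IsIntegral ℤ (rho a - (r : K a)) ∧ minpoly ℤ (rho a - (r : K a)) = shifted a r := by
  have hint : IsIntegral ℤ (rho a - (r : K a)) := ⟨shifted a r, shifted_monic a r, aeval_shifted r⟩
  refine ⟨hint, ?_⟩
  have hirr := he.irreducible ((Ideal.span_singleton_prime hp.ne_zero).2 hp)
    (shifted_monic a r).isPrimitive (by rw [natDegree_shifted]; omega)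
  exact eq_of_monic_of_associated (minpoly.monic hint) (shifted_monic a r)
    ((minpoly.irreducible hint).associated_of_dvd hirr
      (minpoly.isIntegrallyClosed_dvd hint (aeval_shifted r)))

theorem adjoin_sub (r : ℤ) :
    Algebra.adjoin ℤ {rho a - (r : K a)} = Algebra.adjoin ℤ {rho a} := by
  refine le_antisymm (Algebra.adjoin_le ?_) (Algebra.adjoin_le ?_) <;>
    rw [Set.singleton_subset_iff, SetLike.mem_coe]
  · exact sub_mem (Algebra.self_mem_adjoin_singleton _ _) (intCast_mem _ r)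
  · have h := add_mem (Algebra.self_mem_adjoin_singleton ℤ (rho a - (r : K a)))
      (intCast_mem (Algebra.adjoin ℤ {rho a - (r : K a)}) r)
    rwa [sub_add_cancel] at h

/-- A power basis at the shifted root. -/
theorem exists_powerBasis (r : ℤ) :
    ∃ B : PowerBasis ℚ (K a), B.gen = rho a - (r : K a) := by
  set γ := rho a - (r : K a)
  have hdeg : (minpoly ℚ γ).natDegree = 3 := by
    have h1 : γ = rho a - algebraMap ℚ (K a) (r : ℚ) := by simp [γ]
    rw [h1, minpoly.sub_algebraMap, natDegree_comp]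
    have h2 : minpoly ℚ (rho a) = fQ a := by
      rw [show minpoly ℚ (rho a) = _ from AdjoinRoot.minpoly_root (fQ_monic a).ne_zero,
        (fQ_monic a).leadingCoeff, inv_one, C_1, mul_one]
    rw [h2, natDegree_fQ, natDegree_X_add_C, mul_one]
  have hli : LinearIndependent ℚ fun i : Fin 3 => γ ^ (i : ℕ) :=
    (linearIndependent_pow (K := ℚ) γ).comp (Fin.cast hdeg.symm) (Fin.cast_injective _)
  exact ⟨⟨γ, 3, basisOfLinearIndependentOfCardEqFinrank hli (by rw [Fintype.card_fin, finrank_K]),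
    fun i => by rw [coe_basisOfLinearIndependentOfCardEqFinrank]⟩, rfl⟩

/-- **The integers are `ℤ[ρ]`.** -/
theorem mem_adjoin_of_isIntegral (hsf : Squarefree (disc a)) {z : K a} (hz : IsIntegral ℤ z) :
    z ∈ Algebra.adjoin ℤ {rho a} := by
  have key : ∀ m : ℕ, m ≠ 0 → (∀ q : ℕ, q.Prime → q ∣ m → (q : ℤ) ∣ disc a) →
      ∀ w : K a, IsIntegral ℤ w → (m : ℤ) • w ∈ Algebra.adjoin ℤ {rho a} →
        w ∈ Algebra.adjoin ℤ {rho a} := by
    intro m
    induction m using Nat.recOnMul with
    | zero => intro h; exact absurd rfl h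
    | one => intro _ _ w _ h; simpa using h
    | prime q hq =>
      intro _ hdvd w hw h
      have hp := Nat.prime_iff_prime_int.1 hq
      obtain ⟨r, hr⟩ := exists_eisenstein hsf hp (hdvd q hq dvd_rfl)
      obtain ⟨B, hB⟩ := exists_powerBasis (a := a) r
      obtain ⟨hint, hmin⟩ := minpoly_sub r hp hr
      rw [← adjoin_sub r, ← hB] at h ⊢
      exact mem_adjoin_of_smul_prime_pow_smul_of_minpoly_isEisensteinAt (n := 1) hp (hB ▸ hint) hw
        (by rw [pow_one]; exact h) (by rw [hB, hmin]; exact hr)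
    | mul x y ihx ihy =>
      intro hxy hdvd w hw h
      rw [mul_ne_zero_iff] at hxy
      rw [Nat.cast_mul, mul_smul] at h
      exact ihy hxy.2 (fun q hq hqy => hdvd q hq (dvd_mul_of_dvd_right hqy x)) w hw
        (ihx hxy.1 (fun q hq hqx => hdvd q hq (dvd_mul_of_dvd_left hqx y)) _ (hw.smul _) h)
  obtain ⟨B, hBg⟩ := exists_powerBasis (a := a) 0
  rw [Int.cast_zero, sub_zero] at hBg
  have h := Algebra.discr_mul_isIntegral_mem_adjoin ℚ (B := B) (R := ℤ)
    (by rw [hBg]; exact isIntegral_rho a) hz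
  have hd : Algebra.discr ℚ B.basis = ((disc a ^ 2 : ℤ) : ℚ) := by
    rw [← discr_powers a]
    have hdim : B.dim = 3 := by rw [← B.finrank, finrank_K]
    rw [← Algebra.discr_reindex ℚ B.basis (finCongr hdim)]
    congr 1
    funext i
    simp [hBg]
  rw [hd, Int.cast_smul_eq_zsmul, hBg] at h
  have hne : (disc a).natAbs ^ 2 ≠ 0 :=
    pow_ne_zero 2 (Int.natAbs_ne_zero.2 (by have := seven_le_disc a; omega))
  refine key _ hne (fun q hq hqd => Int.natCast_dvd.2 (hq.dvd_of_dvd_pow hqd)) z hz ?_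
  rwa [Nat.cast_pow, Int.natCast_natAbs, sq_abs]

/-- Integral coordinates. -/
theorem exists_el_int (hsf : Squarefree (disc a)) {z : K a} (hz : IsIntegral ℤ z) :
    ∃ x y w : ℤ, z = el a x y w := by
  have hmem := mem_adjoin_of_isIntegral hsf hz
  clear hz
  induction hmem using Algebra.adjoin_induction with
  | mem t ht => rw [Set.mem_singleton_iff.1 ht]; exact ⟨0, 1, 0, by simp [el]⟩
  | algebraMap t => exact ⟨t, 0, 0, by simp [el]⟩
  | add t s _ _ h1 h2 =>
    obtain ⟨x, y, w, rfl⟩ := h1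
    obtain ⟨x', y', w', rfl⟩ := h2
    exact ⟨x + x', y + y', w + w', by rw [el_add]; push_cast; rfl⟩
  | mul t s _ _ h1 h2 =>
    obtain ⟨x, y, w, rfl⟩ := h1
    obtain ⟨x', y', w', rfl⟩ := h2
    refine ⟨x' * x + y' * w + w' * (y + a * w),
      x' * y + y' * (x + (a + 3) * w) + w' * (w + (a + 3) * (y + a * w)),
      x' * w + y' * (y + a * w) + w' * (x + (a + 3) * w + a * (y + a * w)), ?_⟩
    rw [el_mul, el_mul_rho, el_mul_rho]
    simp only [el]
    push_cast
    ring

theorem adjoin_rhoO_eq_top (hsf : Squarefree (disc a)) :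
    Algebra.adjoin ℤ {rhoO a} = (⊤ : Subalgebra ℤ (𝓞 (K a))) := by
  refine eq_top_iff.2 fun z _ => ?_
  obtain ⟨x, y, w, h⟩ := exists_el_int hsf z.isIntegral_coe
  have hz : z = (x : 𝓞 (K a)) + (y : 𝓞 (K a)) * rhoO a + (w : 𝓞 (K a)) * rhoO a ^ 2 := by
    refine RingOfIntegers.ext ?_
    simpa [el] using h
  rw [hz]
  exact add_mem (add_mem (intCast_mem _ x)
    (mul_mem (intCast_mem _ y) (Algebra.self_mem_adjoin_singleton _ _)))
    (mul_mem (intCast_mem _ w) (pow_mem (Algebra.self_mem_adjoin_singleton _ _) 2))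

/-- **The discriminant is `D²`.** -/
theorem discr_eq (hsf : Squarefree (disc a)) : discr (K a) = disc a ^ 2 := by
  have h : (discr (K a) : ℚ) = ((disc a ^ 2 : ℤ) : ℚ) := by
    rw [coe_discr, ← discr_powers a]
    have hb : (fun j : Fin 3 => rho a ^ (j : ℕ)) = basisK a := funext fun j => (basisK_apply a j).symm
    rw [hb]
    refine Algebra.discr_eq_discr_of_toMatrix_coeff_isIntegral (K a) (fun i j => ?_) fun i j => ?_
    · rw [Basis.toMatrix_apply, basisK_apply, show rho a ^ (j : ℕ) = ((rhoO a ^ (j : ℕ) : 𝓞 (K a)) : K a) by simp,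
        integralBasis_repr_apply]
      exact isIntegral_algebraMap
    · obtain ⟨x, y, w, h⟩ := exists_el_int hsf (z := integralBasis (K a) j) (by
        rw [integralBasis_apply]; exact RingOfIntegers.isIntegral_coe _)
      rw [Basis.toMatrix_apply, h, congrFun (repr_el a _ _ _) i]
      fin_cases i <;> exact isIntegral_algebraMap
  exact_mod_cast h

end FA.SimplestCubic
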